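/-
S48, block BB, sub-block Glue (owner helper144).
DIAMOND OPERATORS on the function field, generic part.  For `hL : IsLvl F₀ H N` and `σ ∈ SL(2,ℤ)`
normalising `H`:

* `diam hL σ hσ : FB F₀ ≃ₐ[ℚ̄] FB F₀` with `Psi (diam u) = σ⁻¹ • Psi u`  (i.e. `u ↦ u ∘ σ`);
* `galF_diam` : it commutes with the coefficientwise Galois action as soon as it maps a set of
  generators of `F₀` into (the image of) `F₀`.
-/
import Fermat.Agent.S48.BB.U.Basic
import Fermat.Agent.S48.BB.E.Defs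

set_option autoImplicit false

noncomputable section

namespace Fermat.Agent.S48.BB.Glue

open ModularCurve AlgebraicCurve
open Fermat.Agent.S24 Fermat.Agent.S24.B Fermat.Agent.GAL.Mult
open scoped MatrixGroups

variable {F₀ : IntermediateField ℚ (LaurentSeries ℚ)} {H : Subgroup SL(2, ℤ)} {N : ℕ} [NeZero N]

/-- `σ` normalises `H`. -/
def Normalises (σ : SL(2, ℤ)) (H : Subgroup SL(2, ℤ)) : Prop :=
  ∀ γ : SL(2, ℤ), γ ∈ H ↔ σ * γ * σ⁻¹ ∈ H

theorem Normalises.inv {σ : SL(2, ℤ)} (h : Normalises σ H) : Normalises σ⁻¹ H := by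
  intro γ
  rw [h (σ⁻¹ * γ * σ⁻¹⁻¹)]
  have : σ * (σ⁻¹ * γ * σ⁻¹⁻¹) * σ⁻¹ = γ := by group
  rw [this]

theorem exists_Psi_eq_smul (hL : IsLvl F₀ H N) {σ : SL(2, ℤ)} (hσ : Normalises σ H) (u : FB F₀) :
    ∃ f : FB F₀, U.Psi hL f = σ⁻¹ • U.Psi hL u := by
  refine U.exists_Psi_eq_of_fixed hL _ fun γ hγ => ?_
  have h1 : γ * σ⁻¹ = σ⁻¹ * (σ * γ * σ⁻¹) := by group
  rw [smul_smul, h1, mul_smul, U.smul_Psi_of_mem hL _ ((hσ γ).1 hγ)]

/-- `u ↦ u ∘ σ` as an algebra homomorphism. -/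
def diamHom (hL : IsLvl F₀ H N) (σ : SL(2, ℤ)) (hσ : Normalises σ H) : FB F₀ →ₐ[Kbar] FB F₀ where
  toFun u := (exists_Psi_eq_smul hL hσ u).choose
  map_one' := U.Psi_injective hL (by
    rw [(exists_Psi_eq_smul hL hσ _).choose_spec, map_one, smul_one])
  map_mul' u v := U.Psi_injective hL (by
    rw [(exists_Psi_eq_smul hL hσ _).choose_spec, map_mul, map_mul, smul_mul',
      (exists_Psi_eq_smul hL hσ _).choose_spec, (exists_Psi_eq_smul hL hσ _).choose_spec])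
  map_zero' := U.Psi_injective hL (by
    rw [(exists_Psi_eq_smul hL hσ _).choose_spec, map_zero, smul_zero])
  map_add' u v := U.Psi_injective hL (by
    rw [(exists_Psi_eq_smul hL hσ _).choose_spec, map_add, map_add, smul_add,
      (exists_Psi_eq_smul hL hσ _).choose_spec, (exists_Psi_eq_smul hL hσ _).choose_spec])
  commutes' c := U.Psi_injective hL (by
    rw [(exists_Psi_eq_smul hL hσ _).choose_spec, AlgHom.commutes, smul_algebraMap_Kbar_LL])

theorem Psi_diamHom (hL : IsLvl F₀ H N) (σ : SL(2, ℤ)) (hσ : Normalises σ H) (u : FB F₀) :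
    U.Psi hL (diamHom hL σ hσ u) = σ⁻¹ • U.Psi hL u :=
  (exists_Psi_eq_smul hL hσ u).choose_spec

/-- **The diamond operator** `u ↦ u ∘ σ`. -/
def diam (hL : IsLvl F₀ H N) (σ : SL(2, ℤ)) (hσ : Normalises σ H) : FB F₀ ≃ₐ[Kbar] FB F₀ :=
  AlgEquiv.ofAlgHom (diamHom hL σ hσ) (diamHom hL σ⁻¹ hσ.inv)
    (AlgHom.ext fun u => U.Psi_injective hL (by
      rw [AlgHom.comp_apply, Psi_diamHom, Psi_diamHom, smul_smul, inv_inv, inv_mul_cancel,
        one_smul, AlgHom.id_apply]))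
    (AlgHom.ext fun u => U.Psi_injective hL (by
      rw [AlgHom.comp_apply, Psi_diamHom, Psi_diamHom, smul_smul, inv_inv, mul_inv_cancel,
        one_smul, AlgHom.id_apply]))

theorem Psi_diam (hL : IsLvl F₀ H N) (σ : SL(2, ℤ)) (hσ : Normalises σ H) (u : FB F₀) :
    U.Psi hL (diam hL σ hσ u) = σ⁻¹ • U.Psi hL u :=
  Psi_diamHom hL σ hσ u

/-- characterisation of `diam` -/
theorem diam_eq_iff (hL : IsLvl F₀ H N) (σ : SL(2, ℤ)) (hσ : Normalises σ H) (u f : FB F₀) :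
    diam hL σ hσ u = f ↔ U.Psi hL f = σ⁻¹ • U.Psi hL u := by
  rw [← Psi_diam hL σ hσ u]
  exact ⟨fun h => by rw [h], fun h => (U.Psi_injective hL h).symm⟩

/-- The elements of `F₀` whose diamond translate is again in `F₀`. -/
theorem diam_ofQ_mem_range (hL : IsLvl F₀ H N) (σ : SL(2, ℤ)) (hσ : Normalises σ H)
    (S : Set (LaurentSeries ℚ)) (hS : F₀ = IntermediateField.adjoin ℚ S)
    (hgen : ∀ s (hs : s ∈ F₀), s ∈ S → ∃ f' : F₀, diam hL σ hσ (U.ofQ ⟨s, hs⟩) = U.ofQ f')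
    (f : F₀) : ∃ f' : F₀, diam hL σ hσ (U.ofQ f) = U.ofQ f' := by
  obtain ⟨x, hx⟩ := f
  have key : ∀ (y : LaurentSeries ℚ), y ∈ IntermediateField.adjoin ℚ S → ∀ hy : y ∈ F₀,
      ∃ f' : F₀, diam hL σ hσ (U.ofQ ⟨y, hy⟩) = U.ofQ f' := by
    intro y hy
    induction hy using IntermediateField.adjoin_induction with
    | mem y hy => exact fun hy' => hgen y hy' hy
    | algebraMap c =>
      intro hy'
      refine ⟨⟨algebraMap ℚ _ c, hy'⟩, ?_⟩
      have h1 : (U.ofQ ⟨algebraMap ℚ (LaurentSeries ℚ) c, hy'⟩ : FB F₀) =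
          algebraMap Kbar (FB F₀) (algebraMap ℚ Kbar c) := by
        apply Subtype.ext
        show coeffEmb Kbar (algebraMap ℚ (LaurentSeries ℚ) c) =
          algebraMap Kbar (LaurentSeries Kbar) (algebraMap ℚ Kbar c)
        rw [coeffEmb, algebraMap_laurentSeries_eq_single, algebraMap_laurentSeries_eq_single,
          coeffMap_single]
      rw [h1, AlgEquiv.commutes]
    | add y z hy hz h1 h2 =>
      intro _
      have hy' : y ∈ F₀ := hS ▸ hy
      have hz' : z ∈ F₀ := hS ▸ hz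
      obtain ⟨a, ha⟩ := h1 hy'
      obtain ⟨b, hb⟩ := h2 hz'
      refine ⟨a + b, ?_⟩
      have e : ∀ (a b : F₀), (U.ofQ (a + b) : FB F₀) = U.ofQ a + U.ofQ b := fun a b =>
        Subtype.ext (map_add (coeffEmb Kbar) _ _)
      rw [e, ← ha, ← hb, ← map_add, ← e]
      rfl
    | inv y hy h1 =>
      intro _
      have hy' : y ∈ F₀ := hS ▸ hy
      obtain ⟨a, ha⟩ := h1 hy'
      refine ⟨a⁻¹, ?_⟩
      have e : ∀ (a : F₀), (U.ofQ a⁻¹ : FB F₀) = (U.ofQ a)⁻¹ := fun a =>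
        Subtype.ext (map_inv₀ (coeffEmb Kbar) _)
      rw [e, ← ha, ← map_inv₀, ← e]
      rfl
    | mul y z hy hz h1 h2 =>
      intro _
      have hy' : y ∈ F₀ := hS ▸ hy
      have hz' : z ∈ F₀ := hS ▸ hz
      obtain ⟨a, ha⟩ := h1 hy'
      obtain ⟨b, hb⟩ := h2 hz'
      refine ⟨a * b, ?_⟩
      have e : ∀ (a b : F₀), (U.ofQ (a * b) : FB F₀) = U.ofQ a * U.ofQ b := fun a b =>
        Subtype.ext (map_mul (coeffEmb Kbar) _ _)
      rw [e, ← ha, ← hb, ← map_mul, ← e]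
      rfl
  exact key x (hS ▸ hx) hx

theorem galF_ofQ (τ : GAL.E.GQ) (f : F₀) : E.galF F₀ τ (U.ofQ f) = U.ofQ f := by
  apply Subtype.ext
  rw [E.coe_galF, U.coe_ofQ, coeffEmb, coeffMap_coeffMap]
  exact coeffMap_congr (RingHom.ext fun x => by simp) _

/-- **The diamond operator is defined over `ℚ`.** -/
theorem galF_diam (hL : IsLvl F₀ H N) (σ : SL(2, ℤ)) (hσ : Normalises σ H)
    (hQ : ∀ f : F₀, ∃ f' : F₀, diam hL σ hσ (U.ofQ f) = U.ofQ f')
    (τ : GAL.E.GQ) (u : FB F₀) :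
    E.galF F₀ τ (diam hL σ hσ u) = diam hL σ hσ (E.galF F₀ τ u) := by
  induction u using U.FB_induction with
  | hQ f =>
    obtain ⟨f', hf'⟩ := hQ f
    rw [hf', galF_ofQ, galF_ofQ, hf']
  | hc c => rw [AlgEquiv.commutes, E.galF_algebraMap, AlgEquiv.commutes]
  | hadd f g hf hg => rw [map_add, map_add, hf, hg, map_add, map_add]
  | hmul f g hf hg => rw [map_mul, map_mul, hf, hg, map_mul, map_mul]
  | hinv f hf => rw [map_inv₀, map_inv₀, hf, map_inv₀, map_inv₀]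

end Fermat.Agent.S48.BB.Glue

end
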