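/-
S48, block BB, sub-block Glue (owner helper144).
DIAMOND OPERATORS on `FB (F1Q M r)`: for `σ ∈ Γ₀(M r)`,
`dia M r σ hσ : FB (F1Q M r) ≃ₐ[ℚ̄] FB (F1Q M r)`, `u ↦ u ∘ σ`, with
`dia (u_a) = u_{a σ₀₀}`, `dia (j(q^d)) = j(q^d)`; it commutes with the Galois action.
-/
import Fermat.Agent.S48.BB.Glue.Diamond
import Fermat.Agent.S48.BB.W.Lvl
import Fermat.Agent.S48.BB.H.Fam

set_option autoImplicit false

noncomputable section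

namespace Fermat.Agent.S48.BB.Glue

open ModularCurve AlgebraicCurve CongruenceSubgroup
open Fermat.Agent.S24 Fermat.Agent.S24.B Fermat.Agent.GAL.Mult Fermat.Agent.S48.A
open scoped MatrixGroups

theorem Gamma0_mul_le (M r : ℕ) : Gamma0 (M * r) ≤ Gamma0 M := by
  intro γ h0
  rw [Gamma0_mem, ZMod.intCast_zmod_eq_zero_iff_dvd] at h0 ⊢
  exact (Int.natCast_dvd_natCast.mpr (Dvd.intro r rfl)).trans h0

theorem mem_H1_iff {M r : ℕ} {γ : SL(2, ℤ)} :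
    γ ∈ H1 M r ↔ γ ∈ Gamma0 (M * r) ∧ (dd M γ = 1 ∨ dd M γ = -1) := by
  rw [H1, Subgroup.mem_inf, H.pmGamma1_eq, H.mem_pmSub]
  constructor
  · rintro ⟨⟨-, h⟩, h0⟩
    exact ⟨h0, h⟩
  · rintro ⟨h0, h⟩
    exact ⟨⟨Gamma0_mul_le M r h0, h⟩, h0⟩

theorem normalises_H1 {M r : ℕ} {σ : SL(2, ℤ)} (hσ : σ ∈ Gamma0 (M * r)) :
    Normalises σ (H1 M r) := by
  intro γ
  rw [mem_H1_iff, mem_H1_iff]
  have hσM := Gamma0_mul_le M r hσ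
  constructor
  · rintro ⟨h0, h⟩
    refine ⟨Subgroup.mul_mem _ (Subgroup.mul_mem _ hσ h0) (Subgroup.inv_mem _ hσ), ?_⟩
    rw [H.dd_conj M hσM (Gamma0_mul_le M r h0)]
    exact h
  · rintro ⟨h0, h⟩
    have h1 : γ ∈ Gamma0 (M * r) := by
      have := Subgroup.mul_mem _ (Subgroup.mul_mem _ (Subgroup.inv_mem _ hσ) h0) hσ
      have e : σ⁻¹ * (σ * γ * σ⁻¹) * σ = γ := by group
      rwa [e] at this
    refine ⟨h1, ?_⟩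
    rw [H.dd_conj M hσM (Gamma0_mul_le M r h1)] at h
    exact h

variable (M r : ℕ) [NeZero M] [NeZero r]

/-- The diamond operator `u ↦ u ∘ σ` on `FB (F1Q M r)`, `σ ∈ Γ₀(M r)`. -/
def dia (σ : SL(2, ℤ)) (hσ : σ ∈ Gamma0 (M * r)) : FB (F1Q M r) ≃ₐ[Kbar] FB (F1Q M r) :=
  diam (W.isLvl_F1Q M r) σ (normalises_H1 hσ)

theorem Psi_dia (σ : SL(2, ℤ)) (hσ : σ ∈ Gamma0 (M * r)) (u : FB (F1Q M r)) :
    U.Psi (W.isLvl_F1Q M r) (dia M r σ hσ u) = σ⁻¹ • U.Psi (W.isLvl_F1Q M r) u :=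
  Psi_diam _ σ _ u

theorem uQ_mem (a : ZMod M) : uQ M a ∈ F1Q M r :=
  (le_sup_left : IntermediateField.adjoin ℚ (Set.range (uQ M)) ≤ F1Q M r)
    (IntermediateField.subset_adjoin ℚ _ ⟨a, rfl⟩)

/-- `u_a` as an element of `FB (F1Q M r)`. -/
def uB (a : ZMod M) : FB (F1Q M r) := U.ofQ ⟨uQ M a, uQ_mem M r a⟩

theorem Psi_uB (a : ZMod M) : U.Psi (W.isLvl_F1Q M r) (uB M r a) = W.uLL M r a :=
  U.Psi_ofQ_eq _ _ (W.realises_uLL M r a)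

theorem dia_uB (σ : SL(2, ℤ)) (hσ : σ ∈ Gamma0 (M * r)) (a : ZMod M) :
    dia M r σ hσ (uB M r a) = uB M r (a * ((σ 0 0 : ℤ) : ZMod M)) := by
  rw [dia, diam_eq_iff, Psi_uB, Psi_uB, W.uLL, W.uLL, smul_algebraMap_AB,
    W.smul_uAB_of_mem_Gamma0 M r a σ⁻¹ (inv_mem (Gamma0_mul_le M r hσ)), inv_inv]

theorem dia_ofQ_of_mem_full (σ : SL(2, ℤ)) (hσ : σ ∈ Gamma0 (M * r)) (d : ℕ) [NeZero d]
    (hd : d ∣ M * r) (h : qExpand ℚ d jq ∈ F1Q M r) :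
    dia M r σ hσ (U.ofQ ⟨qExpand ℚ d jq, h⟩) = U.ofQ ⟨qExpand ℚ d jq, h⟩ := by
  rw [dia, diam_eq_iff, U.Psi_ofQ_eq _ _ (W.realises_PsiL_JF (M * r) d hd),
    smul_PsiL_of_mem_Gamma0 _ (inv_mem hσ)]

theorem dia_ofQ (σ : SL(2, ℤ)) (hσ : σ ∈ Gamma0 (M * r)) (f : F1Q M r) :
    ∃ f' : F1Q M r, dia M r σ hσ (U.ofQ f) = U.ofQ f' := by
  refine diam_ofQ_mem_range _ σ _ _ (W.F1Q_eq_adjoin M r) ?_ f
  rintro s hs (⟨a, rfl⟩ | ⟨d, hd0, hd, rfl⟩)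
  · exact ⟨⟨uQ M (a * ((σ 0 0 : ℤ) : ZMod M)), uQ_mem M r _⟩, dia_uB M r σ hσ a⟩
  · exact ⟨_, dia_ofQ_of_mem_full M r σ hσ d hd hs⟩

/-- **The diamond operators are defined over `ℚ`.** -/
theorem galF_dia (σ : SL(2, ℤ)) (hσ : σ ∈ Gamma0 (M * r)) (τ : GAL.E.GQ) (u : FB (F1Q M r)) :
    E.galF (F1Q M r) τ (dia M r σ hσ u) = dia M r σ hσ (E.galF (F1Q M r) τ u) :=
  galF_diam _ σ _ (dia_ofQ M r σ hσ) τ u

end Fermat.Agent.S48.BB.Glue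

end
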