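/-
S48, block BB, sub-block Glue (owner helper144).
The operator families `THop M`, `DHop M : Top.OpFam M` (the parameters `TH`, `DH` of
`Top.KummerPackage1` and `Top.HBlock`), built from `H.TH`, `H.DH` (helper119), and the membership
facts `T, -1 ∈ H1 M r`.
-/
import Fermat.Agent.S48.BB.H.Fam
import Fermat.Agent.S48.BB.Top.Contract

set_option autoImplicit false

namespace Fermat.Agent.S48.BB.Glue

open CongruenceSubgroup
open scoped MatrixGroups

/-- `T_p` on `Hom(±Γ₁(M), -)` as a natural operator. -/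
noncomputable def THop (M : ℕ) [NeZero M] : Top.OpFam M := fun _ hp hpM =>
  { op := fun _ _ => H.TH M hp hpM
    nat := fun g ψ => H.TH_comp M hp hpM g ψ }

/-- `⟨p⟩` on `Hom(±Γ₁(M), -)` as a natural operator. -/
noncomputable def DHop (M : ℕ) [NeZero M] : Top.OpFam M := fun p _ _ =>
  { op := fun _ _ => H.DH M (p : ZMod M)
    nat := fun g ψ => H.DH_comp M (p : ZMod M) g ψ }

theorem THop_op (M : ℕ) [NeZero M] {p : ℕ} (hp : p.Prime) (hpM : ¬ p ∣ M) (A : Type)
    [AddCommGroup A] : (THop M p hp hpM).op A = H.TH M hp hpM := rfl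

theorem DHop_op (M : ℕ) [NeZero M] {p : ℕ} (hp : p.Prime) (hpM : ¬ p ∣ M) (A : Type)
    [AddCommGroup A] : (DHop M p hp hpM).op A = H.DH M (p : ZMod M) := rfl

theorem T_mem_H1 (M r : ℕ) : ModularGroup.T ∈ H1 M r := by
  refine ⟨Subgroup.mem_sup_left ?_, ?_⟩
  · rw [Gamma1_mem]
    simp [ModularGroup.T]
  · show ModularGroup.T ∈ Gamma0 (M * r)
    rw [Gamma0_mem]
    simp [ModularGroup.T]

theorem neg_one_mem_H1 (M r : ℕ) : (-1 : SL(2, ℤ)) ∈ H1 M r := by
  refine ⟨Subgroup.mem_sup_right (Subgroup.mem_zpowers _), ?_⟩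
  show (-1 : SL(2, ℤ)) ∈ Gamma0 (M * r)
  rw [Gamma0_mem]
  simp

end Fermat.Agent.S48.BB.Glue
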