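/-
S48, block BB, sub-block Glue (owner helper144).
ASSEMBLY of `Top.KummerPackage1 M n (THop M) (DHop M)` from
* `TStatement M`   : block T (existence of the multiplicative Hecke operators `T_p` whose diamond part is `u ↦ u ∘ σ_p`);
* `EStatement M n` : blocks E + KL (open stabilisers, unramifiedness, Eichler-Shimura on the Kummer module);
* the blocks M, N, U, W (multiplier map; landed).
-/
import Fermat.Agent.S48.BB.Glue.Ops
import Fermat.Agent.S48.BB.Glue.Mult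
import Fermat.Agent.S48.BB.Glue.DiamondQ
import Fermat.Agent.S48.BB.E.HeckeOp1
import Fermat.Agent.S48.BB.M.Inst

set_option autoImplicit false

noncomputable section

namespace Fermat.Agent.S48.BB.Glue

open ModularCurve AlgebraicCurve CongruenceSubgroup
open Fermat.Agent.S24 Fermat.Agent.S24.B Fermat.Agent.GAL.Mult Fermat.Agent.S48.A
open scoped MatrixGroups OnePoint

/-- **Deliverable of block T** at level `M`. -/
def TStatement (M : ℕ) [NeZero M] : Prop :=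
  ∀ (p : ℕ) [NeZero p], p.Prime → ¬ p ∣ M →
    ∃ Hk : E.HeckeOp1 (F1Q M 1) p, ∀ u : FB (F1Q M 1),
      U.Psi (W.isLvl_F1Q M 1) (Hk.D u) = (H.sig M (p : ZMod M))⁻¹ • U.Psi (W.isLvl_F1Q M 1) u

/-- **Deliverable of the blocks E + KL** at level `M`, exponent `n`. -/
structure EStatement (M n : ℕ) [NeZero M] : Prop where
  openStab : ∀ w : E.W1 (F1Q M 1) n, ∃ L : IntermediateField ℚ (AlgebraicClosure ℚ),
    FiniteDimensional ℚ L ∧ ∀ σ : GQ, (∀ x ∈ L, σ x = x) → E.rho (F1Q M 1) n σ w = w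
  unramified : ∀ q : ℕ, q.Prime → ¬ q ∣ M → ¬ q ∣ n → ∀ σ : GQ, IsInert σ q →
    ∀ w : E.W1 (F1Q M 1) n, E.rho (F1Q M 1) n σ w = w
  eichlerShimura : ∀ (p : ℕ) [NeZero p], p.Prime → ¬ p ∣ M → ¬ p ∣ n →
    ∀ (Hk : E.HeckeOp1 (F1Q M 1) p) (σ : GQ), IsFrob σ p → ∀ w : E.W1 (F1Q M 1) n,
      E.rho (F1Q M 1) n σ (E.rho (F1Q M 1) n σ w) - Hk.TW n (E.rho (F1Q M 1) n σ w)
        + (p : ℕ) • Hk.DW n w = 0

section

variable {M : ℕ} [NeZero M] (hT : TStatement M)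

/-- The chosen Hecke operator. -/
def hk (p : ℕ) (hp : p.Prime) (hpM : ¬ p ∣ M) :
    haveI : NeZero p := ⟨hp.ne_zero⟩
    E.HeckeOp1 (F1Q M 1) p :=
  haveI : NeZero p := ⟨hp.ne_zero⟩
  (hT p hp hpM).choose

theorem Psi_hk_D (p : ℕ) (hp : p.Prime) (hpM : ¬ p ∣ M) (u : FB (F1Q M 1)) :
    haveI : NeZero p := ⟨hp.ne_zero⟩
    U.Psi (W.isLvl_F1Q M 1) ((hk hT p hp hpM).D u) =
      (H.sig M (p : ZMod M))⁻¹ • U.Psi (W.isLvl_F1Q M 1) u :=
  haveI : NeZero p := ⟨hp.ne_zero⟩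
  (hT p hp hpM).choose_spec u

theorem mult_TW (n : ℕ) [NeZero n] (p : ℕ) (hp : p.Prime) (hpM : ¬ p ∣ M)
    (w : E.W1 (F1Q M 1) n) :
    haveI : NeZero p := ⟨hp.ne_zero⟩
    BB.M.multL (W.isLvl_F1Q M 1) n ((hk hT p hp hpM).TW n w) =
      (THop M p hp hpM).op (ZMod n) (BB.M.multL (W.isLvl_F1Q M 1) n w) := by
  have : NeZero p := ⟨hp.ne_zero⟩
  exact BB.M.multL_mapW_hecke (W.isLvl_F1Q M 1) n (T_mem_H1 M 1) (H.isHeckeFamily_T1 M hp hpM)
    (H.repT1_infty M p) (H.repT1_coe M p) (H.repT1_det_pos M p) (hk hT p hp hpM).TU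
    (fun u hu => (hk hT p hp hpM).TU_mem_kum u hu) (hk hT p hp hpM).D (Psi_hk_D hT p hp hpM)
    (fun u => (hk hT p hp hpM).qExpand_T u) w

theorem mult_DW (n : ℕ) [NeZero n] (p : ℕ) (hp : p.Prime) (hpM : ¬ p ∣ M)
    (w : E.W1 (F1Q M 1) n) :
    haveI : NeZero p := ⟨hp.ne_zero⟩
    BB.M.multL (W.isLvl_F1Q M 1) n ((hk hT p hp hpM).DW n w) =
      (DHop M p hp hpM).op (ZMod n) (BB.M.multL (W.isLvl_F1Q M 1) n w) := by
  have : NeZero p := ⟨hp.ne_zero⟩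
  exact BB.M.multL_mapW_diamond (W.isLvl_F1Q M 1) n (H.isHeckeFamily_D M (p : ZMod M))
    (H.repD_apply M (p : ZMod M)) (E.autU (hk hT p hp hpM).D)
    (E.autU_mem_kum (hk hT p hp hpM).D) (fun u => Psi_hk_D hT p hp hpM u) w

/-- **The Kummer package.** -/
def kummerPackage1 (n : ℕ) [NeZero n] (hE : EStatement M n) :
    Top.KummerPackage1 M n (THop M) (DHop M) where
  W := E.W1 (F1Q M 1) n
  ρ σ := E.rho (F1Q M 1) n σ
  ρ_one w := by rw [map_one]; rfl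
  ρ_mul σ τ w := by rw [map_mul]; rfl
  T p hp hpM := haveI : NeZero p := ⟨hp.ne_zero⟩; (hk hT p hp hpM).TW n
  D p hp hpM := haveI : NeZero p := ⟨hp.ne_zero⟩; (hk hT p hp hpM).DW n
  T_ρ p hp hpM σ w := by
    have : NeZero p := ⟨hp.ne_zero⟩
    exact (DFunLike.congr_fun ((hk hT p hp hpM).commute_rho_TW n σ) w).symm
  D_ρ p hp hpM σ w := by
    have : NeZero p := ⟨hp.ne_zero⟩
    exact (DFunLike.congr_fun ((hk hT p hp hpM).commute_rho_DW n σ) w).symm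
  openStab := hE.openStab
  unramified := hE.unramified
  eichlerShimura p hp hpM hpn σ hσ w := by
    have : NeZero p := ⟨hp.ne_zero⟩
    exact hE.eichlerShimura p hp hpM hpn (hk hT p hp hpM) σ hσ w
  mult := BB.M.multL (W.isLvl_F1Q M 1) n
  mult_injective := BB.M.multL_injective _ n
  mult_mem := multL_mem _ n
  mult_surjective := multL_surjective _ n (T_mem_H1 M 1) (neg_one_mem_H1 M 1)
  mult_T := mult_TW hT n
  mult_D := mult_DW hT n

end

/-- **`TopInput` from the deliverables of the blocks T, E + KL, H.** -/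
theorem topInput_of
    (hT : ∀ (M : ℕ) [NeZero M], TStatement M)
    (hE : ∀ (M : ℕ) [NeZero M] (ℓ : ℕ), ℓ.Prime → 5 ≤ ℓ → ℓ ∣ M → EStatement M ℓ)
    (hH : ∀ (M : ℕ) [NeZero M], Nonempty (Top.HBlock M (THop M) (DHop M))) :
    Top.TopInput := by
  intro M _ ℓ hℓ h5 hℓM
  have : NeZero ℓ := ⟨hℓ.ne_zero⟩
  exact ⟨THop M, DHop M, ⟨kummerPackage1 (hT M) ℓ (hE M ℓ hℓ h5 hℓM)⟩, hH M⟩

end Fermat.Agent.S48.BB.Glue

end
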