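/-
S48, block BB, sub-block Glue (owner helper144).
`EStatement M n` from the blocks E (helper203) and KL (helper30, helper28), the only remaining input
being `KL.VertStatement` (sub-block V).
-/
import Fermat.Agent.S48.BB.Glue.Package
import Fermat.Agent.S48.BB.E.Main
import Fermat.Agent.S48.BB.E.FiniteLevel
import Fermat.Agent.S48.BB.KL.Final

set_option autoImplicit false

noncomputable section

namespace Fermat.Agent.S48.BB.Glue

open ModularCurve AlgebraicCurve CongruenceSubgroup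
open Fermat.Agent.S24 Fermat.Agent.S24.B Fermat.Agent.GAL.Mult

/-- the coefficients of `u_a` are integers -/
theorem exists_int_coeff_uQ (M : ℕ) (a : ZMod M) (k : ℤ) :
    ∃ n : ℤ, (uQ M a).coeff k = (n : ℚ) := by
  have hP : tP M a ^ 4 * etaInvQ =
      ((PowerSeries.mk fun n => IS.cB M a n) ^ 4 * dedekindEtaUnitInv).map
        (Int.castRingHom ℚ) := by
    rw [map_mul, map_pow]
    congr 2
  rw [uQ, HahnSeries.coeff_single_mul, one_mul, hP]
  rcases lt_or_ge (k - -1) 0 with h | h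
  · exact ⟨0, by rw [ofPowerSeries_coeff_of_neg _ h, Int.cast_zero]⟩
  · obtain ⟨i, hi⟩ := Int.eq_ofNat_of_zero_le h
    rw [hi, HahnSeries.ofPowerSeries_apply_coeff, PowerSeries.coeff_map]
    exact ⟨_, rfl⟩

/-- the coefficients of `j(q^d)` are integers -/
theorem exists_int_coeff_qExpand_jq (d : ℕ) [NeZero d] (k : ℤ) :
    ∃ n : ℤ, (qExpand ℚ d jq).coeff k = (n : ℚ) := by
  by_cases hk : (d : ℤ) ∣ k
  · obtain ⟨m, rfl⟩ := hk
    rw [qExpand_coeff_mul]
    exact GAL.E.exists_int_coeff_jq m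
  · exact ⟨0, by rw [qExpand_coeff_of_not_dvd _ _ hk, Int.cast_zero]⟩

/-- `F1Q M r` is generated by series with integer coefficients. -/
theorem intGen_F1Q (M r : ℕ) [NeZero (M * r)] : E.IntGen (F1Q M r) := by
  refine ⟨_, W.F1Q_eq_adjoin M r, ?_⟩
  rintro s (⟨a, rfl⟩ | ⟨d, hd0, -, rfl⟩) k
  · exact exists_int_coeff_uQ M a k
  · exact exists_int_coeff_qExpand_jq d k

/-- The key lemma in the shape of block E. -/
theorem kl1 (hV : KL.VertStatement) (M : ℕ) [NeZero M] {p : ℕ} (hp : p.Prime) (hpM : ¬ p ∣ M)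
    (A : ValuationSubring Kbar) (hA : A.LiesOverPrime p) {n : ℕ} (hn : ¬ p ∣ n)
    (hn6 : n.Coprime 6) : E.KL1 (F1Q M 1) A n :=
  haveI : Fact p.Prime := ⟨hp⟩
  KL.kl1Statement_of_lvl_vert W.lvlStatement hV M p hpM A hA n hn hn6

/-- **The deliverable of the blocks E + KL**, from the vertical input. -/
theorem eStatement (hV : KL.VertStatement) (M : ℕ) [NeZero M] {n : ℕ} (hn0 : 0 < n)
    (hn6 : n.Coprime 6) : EStatement M n where
  openStab w := E.exists_finite_level_W (F1Q M 1) n w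
  unramified q hq hqM hqn σ hσ w := by
    obtain ⟨A, hA, hσA⟩ := hσ
    rw [E.rho_eq_one_of_inertia (intGen_F1Q M 1) n hn0 A q hq hA (kl1 hV M hq hqM A hA hqn hn6) σ
      hσA]
    rfl
  eichlerShimura p _ hp hpM hpn Hk σ hσ w := by
    obtain ⟨A, hA, hσA⟩ := hσ
    exact Hk.eichler_shimura (intGen_F1Q M 1) n hn0 hp A hA (kl1 hV M hp hpM A hA hpn hn6) σ hσA w

theorem coprime_six_of_prime {ℓ : ℕ} (hℓ : ℓ.Prime) (h5 : 5 ≤ ℓ) : ℓ.Coprime 6 := by
  have h2 : ℓ.Coprime 2 := (Nat.coprime_primes hℓ Nat.prime_two).2 (by omega)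
  have h3 : ℓ.Coprime 3 := (Nat.coprime_primes hℓ Nat.prime_three).2 (by omega)
  exact Nat.Coprime.mul_right h2 h3

end Fermat.Agent.S48.BB.Glue

end
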