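/-
S48, block BB, sub-block Glue (owner helper144).
**FINAL ASSEMBLY OF BLOCK BB**: `ResidualWeightTwo5` from the single remaining input
`KL.VertStatement` (sub-block V: good reduction of the Gauss valuation of `F1Q M r`).
-/
import Fermat.Agent.S48.BB.Glue.FromE
import Fermat.Agent.S48.BB.T.Statement
import Fermat.Agent.S48.BB.H.Main
import Fermat.Agent.S48.BB.Top.Main

set_option autoImplicit false

namespace Fermat.Agent.S48.BB.Glue

theorem topInput_of_vert (hV : KL.VertStatement) : Top.TopInput :=
  topInput_of (fun M _ => T.tStatement M)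
    (fun M _ _ hℓ h5 _ => eStatement hV M hℓ.pos (coprime_six_of_prime hℓ h5))
    (fun M _ => H.nonempty_hBlock M)

theorem residualWeightTwo5_of_vert (hV : KL.VertStatement) : ResidualWeightTwo5 :=
  Top.residualWeightTwo5_of_topInput (topInput_of_vert hV)

end Fermat.Agent.S48.BB.Glue
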