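/-
S48, block BB, sub-block Glue (owner helper144).
The `mult` fields of `Top.KummerPackage1`, generic part: for `hL : IsLvl F₀ H N` with `T, -1 ∈ H`
the multiplier map `M.multL hL n : M.W (FB F₀) n → Hom(H, ℤ/n)` is injective with image
`Top.homPE H (ℤ/n)`.
-/
import Fermat.Agent.S48.BB.M.Inst
import Fermat.Agent.S48.BB.N.Main
import Fermat.Agent.S48.BB.Top.Contract

set_option autoImplicit false

namespace Fermat.Agent.S48.BB.Glue

open ModularCurve AlgebraicCurve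
open Fermat.Agent.S24 Fermat.Agent.S24.B Fermat.Agent.GAL.Mult
open scoped MatrixGroups

/-! ### The three definitions of `homPE` agree -/

theorem homPE_M_eq_Top (H : Subgroup SL(2, ℤ)) (A : Type*) [AddCommGroup A] :
    M.homPE H A = Top.homPE H A := by
  ext ψ
  rw [M.mem_homPE', Top.mem_homPE]

theorem homPE_N_eq_Top (H : Subgroup SL(2, ℤ)) (A : Type*) [AddCommGroup A] :
    N.homPE H A = Top.homPE H A := rfl

variable {F₀ : IntermediateField ℚ (LaurentSeries ℚ)} {H : Subgroup SL(2, ℤ)} {N : ℕ} [NeZero N]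

theorem Psi_jB_eq (hL : IsLvl F₀ H N) :
    U.Psi hL (U.jB hL) = algebraMap (AB N) (LL N) (BB.N.jAB N) := by
  rw [U.Psi_jB, PsiL_apply, show Psi N (jF N) = algebraMap (AL N) (LN N) (jd N 1 (one_dvd N)) from
    Psi_JF 1 (one_dvd N), lnToLL_algebraMap]
  rfl

theorem cls_eq_cls_iff {F : Type*} [Field F] [Algebra Kbar F] {n : ℕ} (u u' : M.kum F n) :
    M.cls u = M.cls u' ↔ ∃ s : Fˣ, (u' : Fˣ) = u * s ^ n := by
  have h1 : M.cls u = M.cls u' ↔ ((u⁻¹ * u' : M.kum F n) : Fˣ) ∈ M.pows F n := by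
    show (QuotientGroup.mk u : M.Wm F n) = QuotientGroup.mk u' ↔ _
    rw [QuotientGroup.eq, Subgroup.mem_subgroupOf]
  rw [h1, M.mem_pows]
  constructor
  · rintro ⟨s, hs⟩
    refine ⟨s, ?_⟩
    rw [hs]
    simp
  · rintro ⟨s, hs⟩
    refine ⟨s, ?_⟩
    show s ^ n = (u : Fˣ)⁻¹ * (u' : Fˣ)
    rw [hs]
    simp

/-- **The count** (block N) for the Kummer module of `FB F₀`. -/
theorem card_W_eq (hL : IsLvl F₀ H N) (hT : ModularGroup.T ∈ H) (hneg : (-1 : SL(2, ℤ)) ∈ H)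
    {n : ℕ} (hn : 0 < n) :
    Nat.card (M.W (FB F₀) n) = Nat.card (Top.homPE H (ZMod n)) := by
  have := U.finiteIndex hL
  have := U.isFF1 hL
  have := U.finiteDimensional hL
  exact BB.N.card_eq_card_homPE (U.Psi hL) (U.isUniformization hL) (Psi_jB_eq hL)
    (U.transcendental_jB hL) (U.exists_finset_adjoin_eq_top hL) hT hneg hn
    (M.kum (FB F₀) n) (fun _ => Iff.rfl) M.cls M.cls_surjective cls_eq_cls_iff

variable (hL : IsLvl F₀ H N) (n : ℕ) [NeZero n]

theorem multL_mem (w : M.W (FB F₀) n) : M.multL hL n w ∈ Top.homPE H (ZMod n) := by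
  rw [← homPE_M_eq_Top]
  exact M.multL_mem_homPE hL n w

theorem multL_surjective (hT : ModularGroup.T ∈ H) (hneg : (-1 : SL(2, ℤ)) ∈ H)
    (ψ : Additive H →+ ZMod n) (hψ : ψ ∈ Top.homPE H (ZMod n)) :
    ∃ w, M.multL hL n w = ψ := by
  have hn : 0 < n := Nat.pos_of_ne_zero (NeZero.ne n)
  have := U.finiteIndex hL
  let μ : M.W (FB F₀) n → BB.N.homPE H (ZMod n) := fun w => ⟨M.multL hL n w, multL_mem hL n w⟩
  have hμ : Function.Injective μ := fun a b hab =>
    M.multL_injective hL n (congrArg Subtype.val hab)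
  obtain ⟨w, hw⟩ := BB.N.surjective_of_injective hn (card_W_eq hL hT hneg hn) μ hμ ⟨ψ, hψ⟩
  exact ⟨w, congrArg Subtype.val hw⟩

end Fermat.Agent.S48.BB.Glue
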